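import Mathlib.NumberTheory.Bertrand
import Mathlib.RingTheory.IntegralDomain
import Mathlib.RingTheory.Coprime.Lemmas
import Mathlib.RingTheory.Int.Basic
import Mathlib.Algebra.BigOperators.Intervals
import Mathlib.Algebra.Field.ZMod
import Mathlib.FieldTheory.Finite.Basic
import Mathlib.Analysis.Real.Sqrt
import Mathlib.Tactic.Linarith

/-!
# Ruzsa's coding of primes by discrete logarithms

A prime `p` of the `k`-th class becomes the number whose digit in the mixed radix `4 q 0, 4 q 1, …`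
at `j < k` is `q j + 1` plus the logarithm of `p` modulo the prime `q j ≍ 4 ^ j`. If two such numbers
have the same sum as two others, the classes agree and the primes satisfy strong congruences.
-/

set_option autoImplicit false

noncomputable section

namespace FA.InfiniteSidon

open Finset

/-- The moduli: `4 ^ (j + 1) < q j ≤ 2 * 4 ^ (j + 1)`. -/
def qmod (j : ℕ) : ℕ :=
  (Nat.exists_prime_lt_and_le_two_mul (4 ^ (j + 1)) (by positivity)).choose

theorem qmod_spec (j : ℕ) :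
    (qmod j).Prime ∧ 4 ^ (j + 1) < qmod j ∧ qmod j ≤ 2 * 4 ^ (j + 1) :=
  (Nat.exists_prime_lt_and_le_two_mul (4 ^ (j + 1)) (by positivity)).choose_spec

instance fact_qmod (j : ℕ) : Fact (qmod j).Prime := ⟨(qmod_spec j).1⟩

theorem qmod_strictMono : StrictMono qmod := strictMono_nat_of_lt_succ fun j => by
  have h1 := (qmod_spec j).2.2
  have h2 := (qmod_spec (j + 1)).2.1
  rw [pow_succ] at h2
  omega

theorem exists_dlog (j : ℕ) : ∃ (g : ZMod (qmod j)) (L : ℕ → ℕ),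
    ∀ p, L p + 2 ≤ qmod j ∧ (¬ qmod j ∣ p → g ^ L p = (p : ZMod (qmod j))) := by
  classical
  obtain ⟨g, hg⟩ := IsCyclic.exists_generator (α := (ZMod (qmod j))ˣ)
  have hcard : Nat.card (ZMod (qmod j))ˣ = qmod j - 1 := by
    rw [Nat.card_eq_fintype_card, ZMod.card_units]
  have hord : orderOf g = qmod j - 1 := (orderOf_eq_card_of_forall_mem_zpowers hg).trans hcard
  have hq := (qmod_spec j).1.two_le
  have hex : ∀ p : ℕ, ∃ x, x + 2 ≤ qmod j ∧
      (¬ qmod j ∣ p → (g : ZMod (qmod j)) ^ x = (p : ZMod (qmod j))) := by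
    intro p
    by_cases hp : qmod j ∣ p
    · exact ⟨0, by omega, fun h => absurd hp h⟩
    have hp0 : (p : ZMod (qmod j)) ≠ 0 := fun h0 => hp ((ZMod.natCast_eq_zero_iff p _).1 h0)
    obtain ⟨x, hx⟩ := ((isOfFinOrder_of_finite g).mem_zpowers_iff_mem_range_orderOf).1
      (hg (Units.mk0 _ hp0)) |> mem_image.1
    refine ⟨x, ?_, fun _ => ?_⟩
    · have := mem_range.1 hx.1
      omega
    · rw [← Units.val_pow_eq_pow_val, hx.2, Units.val_mk0]
  choose L hL using hex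
  exact ⟨g, L, hL⟩

/-- The base of the logarithm modulo `q j`. -/
def gen (j : ℕ) : ZMod (qmod j) := (exists_dlog j).choose

/-- The discrete logarithm modulo `q j`. -/
def dlog (j : ℕ) : ℕ → ℕ := (exists_dlog j).choose_spec.choose

theorem dlog_lt (j p : ℕ) : dlog j p + 2 ≤ qmod j :=
  ((exists_dlog j).choose_spec.choose_spec p).1

theorem gen_pow_dlog {j p : ℕ} (hp : ¬ qmod j ∣ p) : gen j ^ dlog j p = (p : ZMod (qmod j)) :=
  ((exists_dlog j).choose_spec.choose_spec p).2 hp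

/-- The digits of the code. -/
def digit (k p j : ℕ) : ℕ := if j < k then qmod j + 1 + dlog j p else 0

theorem digit_of_lt {k p j : ℕ} (h : j < k) : digit k p j = qmod j + 1 + dlog j p := if_pos h

theorem digit_of_le {k p j : ℕ} (h : k ≤ j) : digit k p j = 0 := if_neg (not_lt.2 h)

theorem digit_lt (k p j : ℕ) : digit k p j < 2 * qmod j := by
  have h1 := dlog_lt j p
  rw [digit]
  split_ifs <;> omega

/-- The radices. -/
def radix (j : ℕ) : ℕ := ∏ i ∈ range j, 4 * qmod i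

theorem radix_pos (j : ℕ) : 0 < radix j :=
  prod_pos fun i _ => Nat.mul_pos (by norm_num) (qmod_spec i).1.pos

/-- The code of the prime `p` of class `k`. -/
def code (k p : ℕ) : ℕ := ∑ j ∈ range k, digit k p j * radix j

theorem code_eq_sum {k K : ℕ} (hK : k ≤ K) (p : ℕ) :
    code k p = ∑ j ∈ range K, digit k p j * radix j := by
  refine sum_subset (fun j hj => mem_range.2 (lt_of_lt_of_le (mem_range.1 hj) hK)) fun j _ hj => ?_
  rw [digit_of_le (not_lt.1 fun h => hj (mem_range.2 h)), zero_mul]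

theorem sum_lt_radix {D : ℕ → ℕ} {K : ℕ} (hD : ∀ j, D j < 4 * qmod j) :
    ∑ j ∈ range K, D j * radix j < radix K := by
  induction K with
  | zero => simp [radix]
  | succ K ih =>
    rw [sum_range_succ, show radix (K + 1) = radix K * (4 * qmod K) from prod_range_succ _ _,
      mul_comm (radix K)]
    have := Nat.mul_le_mul_right (radix K) (Nat.succ_le_of_lt (hD K))
    rw [Nat.succ_mul] at this
    omega

theorem code_lt_radix (k p : ℕ) : code k p < radix k :=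
  sum_lt_radix fun j => by have := digit_lt k p j; omega

theorem eq_of_sum_radix_eq {D E : ℕ → ℕ} : ∀ {K : ℕ}, (∀ j, D j < 4 * qmod j) →
    (∀ j, E j < 4 * qmod j) →
    ∑ j ∈ range K, D j * radix j = ∑ j ∈ range K, E j * radix j → ∀ j < K, D j = E j := by
  intro K
  induction K with
  | zero => exact fun _ _ _ j hj => absurd hj (Nat.not_lt_zero j)
  | succ K ih =>
    intro hD hE h j hj
    rw [sum_range_succ, sum_range_succ] at h
    have h1 := congrArg (· / radix K) h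
    simp only [Nat.add_mul_div_right _ _ (radix_pos K), Nat.div_eq_of_lt (sum_lt_radix hD),
      Nat.div_eq_of_lt (sum_lt_radix hE), zero_add] at h1
    rcases Nat.lt_succ_iff_lt_or_eq.1 hj with hj' | rfl
    · exact ih hD hE (by rw [h1] at h; omega) j hj'
    · exact h1

theorem digit_add_eq {k₁ k₂ k₃ k₄ p₁ p₂ p₃ p₄ : ℕ}
    (h : code k₁ p₁ + code k₂ p₂ = code k₃ p₃ + code k₄ p₄) (j : ℕ) :
    digit k₁ p₁ j + digit k₂ p₂ j = digit k₃ p₃ j + digit k₄ p₄ j := by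
  obtain ⟨K, hK⟩ : ∃ K, K = j + 1 + k₁ + k₂ + k₃ + k₄ := ⟨_, rfl⟩
  rw [code_eq_sum (K := K) (by omega), code_eq_sum (K := K) (by omega),
    code_eq_sum (K := K) (by omega), code_eq_sum (K := K) (by omega), ← sum_add_distrib,
    ← sum_add_distrib] at h
  simp only [← add_mul] at h
  exact eq_of_sum_radix_eq (fun i => by have := digit_lt k₁ p₁ i; have := digit_lt k₂ p₂ i; omega)
    (fun i => by have := digit_lt k₃ p₃ i; have := digit_lt k₄ p₄ i; omega) h j (by omega)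

theorem class_eq {k₁ k₂ k₃ k₄ p₁ p₂ p₃ p₄ : ℕ} (h₁₂ : k₂ ≤ k₁) (h₃₄ : k₄ ≤ k₃)
    (h : code k₁ p₁ + code k₂ p₂ = code k₃ p₃ + code k₄ p₄) : k₁ = k₃ ∧ k₂ = k₄ := by
  have hle : ∀ {a b c d x y z w : ℕ}, b ≤ a → d ≤ c →
      code a x + code b y = code c z + code d w → c ≤ a := by
    intro a b c d x y z w hab _ hh
    by_contra hcon
    have := digit_add_eq hh a
    rw [digit_of_le le_rfl, digit_of_le hab, digit_of_lt (not_le.1 hcon)] at this
    omega
  have h13 : k₁ = k₃ := le_antisymm (hle h₃₄ h₁₂ h.symm) (hle h₁₂ h₃₄ h)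
  subst h13
  have hle' : ∀ {a b d x y z w : ℕ}, d ≤ a →
      code a x + code b y = code a z + code d w → d ≤ b := by
    intro a b d x y z w hda hh
    by_contra hcon
    have := digit_add_eq hh b
    rw [digit_of_le le_rfl, digit_of_lt (lt_of_lt_of_le (not_le.1 hcon) hda),
      digit_of_lt (lt_of_lt_of_le (not_le.1 hcon) hda), digit_of_lt (not_le.1 hcon)] at this
    have := dlog_lt b x
    omega
  exact ⟨rfl, le_antisymm (hle' h₁₂ h.symm) (hle' h₃₄ h)⟩

/-- The product of the moduli `q j` for `l ≤ j < k`. -/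
def qprod (l k : ℕ) : ℕ := ∏ j ∈ Ico l k, qmod j

theorem qprod_pos (l k : ℕ) : 0 < qprod l k := prod_pos fun j _ => (qmod_spec j).1.pos

theorem qprod_mul {l k : ℕ} (h : l ≤ k) : qprod 0 l * qprod l k = qprod 0 k :=
  prod_Ico_consecutive _ (Nat.zero_le _) h

theorem two_pow_le_qprod (k : ℕ) : 2 ^ (k ^ 2 + k) ≤ qprod 0 k := by
  induction k with
  | zero => simp [qprod]
  | succ k ih =>
    rw [qprod, prod_Ico_succ_top (Nat.zero_le _), ← qprod,
      show (k + 1) ^ 2 + (k + 1) = k ^ 2 + k + 2 * (k + 1) by ring, pow_add, pow_mul]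
    exact Nat.mul_le_mul ih (qmod_spec k).2.1.le

theorem radix_le (k : ℕ) : radix k ≤ 2 ^ (k ^ 2 + 4 * k) := by
  induction k with
  | zero => simp [radix]
  | succ k ih =>
    rw [show radix (k + 1) = radix k * (4 * qmod k) from prod_range_succ _ _,
      show (k + 1) ^ 2 + 4 * (k + 1) = k ^ 2 + 4 * k + (3 + 2 * (k + 1)) by ring, pow_add _ _ (3 + _),
      pow_add _ 3, pow_mul 2 2]
    refine Nat.mul_le_mul ih ?_
    have := (qmod_spec k).2.2
    norm_num
    omega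

theorem qprod_dvd {l k : ℕ} {x y : ℕ}
    (h : ∀ j, l ≤ j → j < k → (x : ZMod (qmod j)) = (y : ZMod (qmod j))) :
    (qprod l k : ℤ) ∣ (x : ℤ) - y := by
  rw [qprod, Nat.cast_prod]
  refine prod_dvd_of_coprime (fun i _ j _ hij => ?_) fun j hj => ?_
  · exact Nat.isCoprime_iff_coprime.2
      ((Nat.coprime_primes (qmod_spec i).1 (qmod_spec j).1).2 (qmod_strictMono.injective.ne hij))
  · rw [← ZMod.intCast_zmod_eq_zero_iff_dvd]
    push_cast
    rw [h j (mem_Ico.1 hj).1 (mem_Ico.1 hj).2, sub_self]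

/-- **The congruences of a coincidence.** -/
theorem dvd_of_code_add_eq {k l p₁ p₂ r₁ r₂ : ℕ} (hl : l ≤ k)
    (h₁ : ∀ j < k, ¬ qmod j ∣ p₁) (h₂ : ∀ j < l, ¬ qmod j ∣ p₂)
    (h₃ : ∀ j < k, ¬ qmod j ∣ r₁) (h₄ : ∀ j < l, ¬ qmod j ∣ r₂)
    (h : code k p₁ + code l p₂ = code k r₁ + code l r₂) :
    (qprod 0 l : ℤ) ∣ (p₁ * p₂ : ℕ) - ((r₁ * r₂ : ℕ) : ℤ) ∧
      (qprod l k : ℤ) ∣ (p₁ : ℤ) - r₁ := by
  refine ⟨qprod_dvd fun j _ hj => ?_, qprod_dvd fun j hlj hjk => ?_⟩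
  · have hd := digit_add_eq h j
    rw [digit_of_lt (lt_of_lt_of_le hj hl), digit_of_lt hj, digit_of_lt (lt_of_lt_of_le hj hl),
      digit_of_lt hj] at hd
    have : dlog j p₁ + dlog j p₂ = dlog j r₁ + dlog j r₂ := by omega
    push_cast
    rw [← gen_pow_dlog (h₁ j (lt_of_lt_of_le hj hl)), ← gen_pow_dlog (h₂ j hj),
      ← gen_pow_dlog (h₃ j (lt_of_lt_of_le hj hl)), ← gen_pow_dlog (h₄ j hj), ← pow_add,
      ← pow_add, this]
  · have hd := digit_add_eq h j
    rw [digit_of_lt hjk, digit_of_le hlj, digit_of_lt hjk, digit_of_le hlj] at hd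
    rw [← gen_pow_dlog (h₁ j hjk), ← gen_pow_dlog (h₃ j hjk),
      show dlog j p₁ = dlog j r₁ by omega]

/-- The exponent `√2 - 1`. -/
def sidonExp : ℝ := √2 - 1

theorem sidonExp_bounds : 0.41 ≤ sidonExp ∧ sidonExp ≤ 0.42 := by
  rw [sidonExp]
  constructor
  · have : (1.41 : ℝ) ≤ √2 := Real.le_sqrt_of_sq_le (by norm_num)
    linarith
  · have : √2 ≤ (1.42 : ℝ) := Real.sqrt_le_iff.2 ⟨by norm_num, by norm_num⟩
    linarith

theorem sidonExp_mul : sidonExp * (1 + sidonExp) = 1 - sidonExp := by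
  rw [sidonExp]
  linear_combination Real.sq_sqrt (show (0 : ℝ) ≤ 2 by norm_num)

/-- The logarithmic size `u k = ⌊(√2 - 1) k ^ 2 - k⌋₊` of the primes of class `k`. -/
def size (k : ℕ) : ℕ := ⌊sidonExp * (k : ℝ) ^ 2 - k⌋₊

theorem size_le_real (k : ℕ) : (size k : ℝ) ≤ sidonExp * (k : ℝ) ^ 2 := by
  rcases le_total (sidonExp * (k : ℝ) ^ 2 - k) 0 with h | h
  · rw [size, Nat.floor_eq_zero.2 (by linarith), Nat.cast_zero]
    nlinarith [sidonExp_bounds.1]
  · exact (Nat.floor_le h).trans (by linarith [(Nat.cast_nonneg' k : (0 : ℝ) ≤ k)])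

theorem size_le (k : ℕ) : size k ≤ k ^ 2 := by
  have h := size_le_real k
  have : (size k : ℝ) ≤ ((k ^ 2 : ℕ) : ℝ) := by
    push_cast
    nlinarith [sidonExp_bounds.2]
  exact_mod_cast this

theorem size_mono : Monotone size := by
  intro i j hij
  rcases le_or_gt i 2 with hi | hi
  · have hi' : (i : ℝ) ≤ 2 := by exact_mod_cast hi
    rw [size, Nat.floor_eq_zero.2]
    · exact Nat.zero_le _
    · nlinarith [sidonExp_bounds.2, (Nat.cast_nonneg' i : (0 : ℝ) ≤ i)]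
  · refine Nat.floor_mono ?_
    have h1 : (3 : ℝ) ≤ i := by exact_mod_cast hi
    have h2 : (i : ℝ) ≤ j := Nat.cast_le.2 hij
    nlinarith [sidonExp_bounds.1, mul_nonneg (sub_nonneg.2 h2) (show (0 : ℝ) ≤ sidonExp * ((i : ℝ) + j) - 1 by nlinarith [sidonExp_bounds.1])]

/-- The primes of class `k`. -/
def classPrimes (k : ℕ) : Finset ℕ :=
  (range (2 ^ size k + 1)).filter fun p =>
    p.Prime ∧ (∀ i < k, 2 ^ size i < p) ∧ ∀ j < k, qmod j ≠ p

theorem classPrimes_spec {k p : ℕ} (hp : p ∈ classPrimes k) :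
    p.Prime ∧ p ≤ 2 ^ size k ∧ (∀ i < k, 2 ^ size i < p) ∧ ∀ j < k, ¬ qmod j ∣ p := by
  obtain ⟨h1, h2, h3, h4⟩ := mem_filter.1 hp
  exact ⟨h2, Nat.le_of_lt_succ (mem_range.1 h1), h3,
    fun j hj hd => h4 j hj ((Nat.prime_dvd_prime_iff_eq (qmod_spec j).1 h2).1 hd)⟩

theorem class_unique {k l p : ℕ} (hk : p ∈ classPrimes k) (hl : p ∈ classPrimes l) : k = l := by
  rcases lt_trichotomy k l with h | h | h
  · exact absurd (classPrimes_spec hk).2.1 (not_le.2 ((classPrimes_spec hl).2.2.1 k h))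
  · exact h
  · exact absurd (classPrimes_spec hl).2.1 (not_le.2 ((classPrimes_spec hk).2.2.1 l h))

theorem not_qprod_dvd_sub {k p r : ℕ} (hp : p ∈ classPrimes k) (hr : r ∈ classPrimes k)
    (hd : (qprod 0 k : ℤ) ∣ (p : ℤ) - r) : p = r := by
  by_contra hne
  have hQ : 2 ^ size k ≤ qprod 0 k :=
    (Nat.pow_le_pow_right (by norm_num) ((size_le k).trans (Nat.le_add_right _ k))).trans
      (two_pow_le_qprod k)
  have h1 := (classPrimes_spec hp).1.pos
  have h2 := (classPrimes_spec hr).1.pos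
  have h3 := (classPrimes_spec hp).2.1.trans hQ
  have h4 := (classPrimes_spec hr).2.1.trans hQ
  have := Int.eq_zero_of_abs_lt_dvd hd (by rw [abs_lt]; constructor <;> omega)
  omega

theorem code_injective {k l p r : ℕ} (hp : p ∈ classPrimes k) (hr : r ∈ classPrimes l)
    (h : code k p = code l r) : k = l ∧ p = r := by
  have hkl : k = l := by
    refine (class_eq (p₁ := p) (p₂ := p) (p₃ := r) (p₄ := r) le_rfl le_rfl ?_).1
    rw [h]
  subst hkl
  refine ⟨rfl, not_qprod_dvd_sub hp hr ?_⟩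
  exact (dvd_of_code_add_eq (l := 0) (p₂ := 1) (r₂ := 1) (Nat.zero_le k)
    (classPrimes_spec hp).2.2.2 (fun j hj => absurd hj (Nat.not_lt_zero j))
    (classPrimes_spec hr).2.2.2 (fun j hj => absurd hj (Nat.not_lt_zero j)) (by rw [h])).2

/-- `p` begins a coincidence in a class `l ≤ k`. -/
def IsBad (k p : ℕ) : Prop :=
  ∃ l ≤ k, ∃ r ∈ classPrimes k, ∃ p' ∈ classPrimes l, ∃ r' ∈ classPrimes l,
    p ≠ r ∧ p * p' ≠ r * r' ∧ (qprod 0 l : ℤ) ∣ (p * p' : ℕ) - ((r * r' : ℕ) : ℤ) ∧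
      (qprod l k : ℤ) ∣ (p : ℤ) - r

open Classical in
/-- The primes of class `k` that are kept. -/
def goodPrimes (k : ℕ) : Finset ℕ := (classPrimes k).filter fun p => ¬ IsBad k p

/-- **Ruzsa's set.** -/
def ruzsaSet : Set ℕ := {a | ∃ k, ∃ p ∈ goodPrimes k, code k p = a}

theorem eq_of_code_add {k₁ k₂ k₃ k₄ p₁ p₂ p₃ p₄ : ℕ} (hp₁ : p₁ ∈ goodPrimes k₁)
    (hp₂ : p₂ ∈ classPrimes k₂) (hp₃ : p₃ ∈ classPrimes k₃) (hp₄ : p₄ ∈ classPrimes k₄)
    (h₁₂ : k₂ ≤ k₁) (h₃₄ : k₄ ≤ k₃)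
    (h : code k₁ p₁ + code k₂ p₂ = code k₃ p₃ + code k₄ p₄) :
    (code k₁ p₁ = code k₃ p₃ ∧ code k₂ p₂ = code k₄ p₄) ∨
      (code k₁ p₁ = code k₄ p₄ ∧ code k₂ p₂ = code k₃ p₃) := by
  classical
  obtain ⟨rfl, rfl⟩ := class_eq h₁₂ h₃₄ h
  obtain ⟨hp, hbad⟩ := mem_filter.1 hp₁
  by_cases h13 : p₁ = p₃
  · subst h13
    exact Or.inl ⟨rfl, by omega⟩
  by_cases hprod : p₁ * p₂ = p₃ * p₄
  · right
    have h14 : p₁ = p₄ := by
      have hd : p₁ ∣ p₃ * p₄ := ⟨p₂, hprod.symm⟩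
      rcases (classPrimes_spec hp).1.dvd_mul.1 hd with hd | hd
      · exact absurd ((Nat.prime_dvd_prime_iff_eq (classPrimes_spec hp).1
          (classPrimes_spec hp₃).1).1 hd) h13
      · exact (Nat.prime_dvd_prime_iff_eq (classPrimes_spec hp).1 (classPrimes_spec hp₄).1).1 hd
    subst h14
    have hk := class_unique hp hp₄
    subst hk
    have h23 : p₂ = p₃ :=
      Nat.eq_of_mul_eq_mul_left (classPrimes_spec hp).1.pos (hprod.trans (mul_comm _ _))
    subst h23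
    exact ⟨rfl, rfl⟩
  · exact absurd ⟨k₂, h₁₂, p₃, hp₃, p₂, hp₂, p₄, hp₄, h13, hprod,
      dvd_of_code_add_eq h₁₂ (classPrimes_spec hp).2.2.2 (classPrimes_spec hp₂).2.2.2
        (classPrimes_spec hp₃).2.2.2 (classPrimes_spec hp₄).2.2.2 h⟩ hbad

/-- **Ruzsa's set is a Sidon set.** -/
theorem ruzsaSet_sidon {a b c d : ℕ} (ha : a ∈ ruzsaSet) (hb : b ∈ ruzsaSet) (hc : c ∈ ruzsaSet)
    (hd : d ∈ ruzsaSet) (h : a + b = c + d) : (a = c ∧ b = d) ∨ (a = d ∧ b = c) := by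
  classical
  obtain ⟨k₁, p₁, hp₁, rfl⟩ := ha
  obtain ⟨k₂, p₂, hp₂, rfl⟩ := hb
  obtain ⟨k₃, p₃, hp₃, rfl⟩ := hc
  obtain ⟨k₄, p₄, hp₄, rfl⟩ := hd
  have hg : ∀ {k p : ℕ}, p ∈ goodPrimes k → p ∈ classPrimes k := fun hp => (mem_filter.1 hp).1
  rcases le_total k₂ k₁ with h12 | h12 <;> rcases le_total k₄ k₃ with h34 | h34
  · exact eq_of_code_add hp₁ (hg hp₂) (hg hp₃) (hg hp₄) h12 h34 h
  · rcases eq_of_code_add hp₁ (hg hp₂) (hg hp₄) (hg hp₃) h12 h34 (by omega) with e | e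
    · exact Or.inr e
    · exact Or.inl e
  · rcases eq_of_code_add hp₂ (hg hp₁) (hg hp₃) (hg hp₄) h12 h34 (by omega) with e | e
    · exact Or.inr e.symm
    · exact Or.inl e.symm
  · rcases eq_of_code_add hp₂ (hg hp₁) (hg hp₄) (hg hp₃) h12 h34 (by omega) with e | e
    · exact Or.inl e.symm
    · exact Or.inr e.symm

end FA.InfiniteSidon
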