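import Mathlib.NumberTheory.Harmonic.Bounds
import Mathlib.Analysis.Real.Sqrt
import Mathlib.Algebra.Order.BigOperators.Ring.Finset
import Mathlib.Data.Set.Card
import Mathlib.Analysis.Complex.ExponentialBounds
import Mathlib.Algebra.BigOperators.Intervals

/-!
# Erdős's bound for infinite Sidon sets

An infinite Sidon set has at most `16 √(n / log n)` elements up to `n` for arbitrarily large `n`:
the differences inside the `N` blocks of length `N` of `[1, N ^ 2]` are distinct.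
-/

set_option autoImplicit false

noncomputable section

namespace FA.InfiniteSidon

open Finset

/-- Distinct pairwise sums. -/
def SidonProp (A : Set ℕ) : Prop :=
  ∀ a ∈ A, ∀ b ∈ A, ∀ c ∈ A, ∀ d ∈ A, a + b = c + d → (a = c ∧ b = d) ∨ (a = d ∧ b = c)

variable {A : Set ℕ}

open Classical in
/-- The elements of `A` in the `i`-th block `(i N, (i + 1) N]`. -/
def block (A : Set ℕ) (N i : ℕ) : Finset ℕ := (Ioc (i * N) ((i + 1) * N)).filter (· ∈ A)

theorem mem_block {N i a : ℕ} :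
    a ∈ block A N i ↔ (i * N < a ∧ a ≤ (i + 1) * N) ∧ a ∈ A := by
  classical
  simp [block]

theorem block_disjoint {N i j : ℕ} (h : i ≠ j) : Disjoint (block A N i) (block A N j) := by
  refine disjoint_left.2 fun a ha hb => h ?_
  obtain ⟨⟨h1, h2⟩, -⟩ := mem_block.1 ha
  obtain ⟨⟨h3, h4⟩, -⟩ := mem_block.1 hb
  have h5 : i < j + 1 := Nat.lt_of_mul_lt_mul_right (h1.trans_le h4)
  have h6 : j < i + 1 := Nat.lt_of_mul_lt_mul_right (h3.trans_le h2)
  omega

/-- **The differences inside the blocks are distinct.** -/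
theorem sum_block_sq_le (hA : SidonProp A) (N : ℕ) :
    ∑ i ∈ range N, ((block A N i).card : ℝ) ^ 2 ≤ 5 * N := by
  classical
  obtain ⟨P, hP⟩ : ∃ P : Finset (ℕ × ℕ),
      P = (range N).biUnion fun i => (block A N i).offDiag := ⟨_, rfl⟩
  have hcard : P.card ≤ 2 * N := by
    refine le_trans (card_le_card_of_injOn (fun x : ℕ × ℕ => (x.1 : ℤ) - x.2)
      (t := Ico (-(N : ℤ)) N) (fun x hx => ?_) fun x hx y hy e => ?_) (by simp; omega)
    · obtain ⟨i, -, hx⟩ := mem_biUnion.1 (hP ▸ hx :)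
      obtain ⟨hx1, hx2, -⟩ := mem_offDiag.1 hx
      obtain ⟨h1, -⟩ := mem_block.1 hx1
      obtain ⟨h2, -⟩ := mem_block.1 hx2
      rw [Nat.succ_mul] at h1 h2
      simp only [coe_Ico, Set.mem_Ico]
      omega
    · obtain ⟨i, -, hx⟩ := mem_biUnion.1 (hP ▸ hx :)
      obtain ⟨j, -, hy⟩ := mem_biUnion.1 (hP ▸ hy :)
      obtain ⟨hx1, hx2, hxne⟩ := mem_offDiag.1 hx
      obtain ⟨hy1, hy2, -⟩ := mem_offDiag.1 hy
      rcases hA _ (mem_block.1 hx1).2 _ (mem_block.1 hy2).2 _ (mem_block.1 hy1).2 _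
        (mem_block.1 hx2).2 (by simp only at e; omega) with ⟨h1, h2⟩ | ⟨h1, -⟩
      · exact Prod.ext h1 h2.symm
      · exact absurd h1 hxne
  have hsum : P.card = ∑ i ∈ range N, (block A N i).offDiag.card := by
    rw [hP, card_biUnion fun i _ j _ hij => disjoint_left.2 fun x hx hy =>
      disjoint_left.1 (block_disjoint hij) (mem_offDiag.1 hx).1 (mem_offDiag.1 hy).1]
  have hone : ∀ n : ℕ, (n : ℝ) ^ 2 ≤ 2 * ((n * n - n : ℕ) : ℝ) + 1 := by
    intro n
    have : n * n ≤ 2 * (n * n - n) + 1 := by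
      rcases Nat.lt_or_ge n 2 with h | h
      · interval_cases n <;> simp
      · have := Nat.mul_le_mul_right n h
        omega
    rw [pow_two]; exact_mod_cast this
  calc ∑ i ∈ range N, ((block A N i).card : ℝ) ^ 2
      ≤ ∑ i ∈ range N, (2 * ((block A N i).offDiag.card : ℝ) + 1) :=
        sum_le_sum fun i _ => by rw [offDiag_card]; exact hone _
    _ = 2 * (P.card : ℝ) + N := by
        rw [sum_add_distrib, ← mul_sum, hsum, Nat.cast_sum]; simp
    _ ≤ _ := by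
        have : (P.card : ℝ) ≤ 2 * N := by exact_mod_cast hcard
        linarith

theorem count_le_sum_block (N l : ℕ) :
    {a | a ∈ A ∧ a ≤ (l + 1) * N}.ncard ≤ 1 + ∑ i ∈ range (l + 1), (block A N i).card := by
  classical
  have hsub : {a | a ∈ A ∧ a ≤ (l + 1) * N} ⊆
      (({0} ∪ (range (l + 1)).biUnion (block A N) : Finset ℕ) : Set ℕ) := by
    intro a ha
    rcases Nat.eq_zero_or_pos a with rfl | ha0
    · simp
    have hN : 0 < N := Nat.pos_of_mul_pos_left (ha0.trans_le ha.2)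
    refine mem_coe.2 (mem_union_right _ (mem_biUnion.2 ⟨(a - 1) / N, mem_range.2 ?_,
      mem_block.2 ⟨⟨?_, ?_⟩, ha.1⟩⟩))
    · rw [Nat.div_lt_iff_lt_mul hN]
      have := ha.2
      omega
    · have := Nat.div_mul_le_self (a - 1) N
      omega
    · have := Nat.lt_mul_div_succ (a - 1) hN
      rw [mul_comm]
      omega
  refine (Set.ncard_le_ncard hsub).trans ?_
  rw [Set.ncard_coe_finset]
  exact (card_union_le _ _).trans (Nat.add_le_add (le_of_eq (card_singleton 0)) card_biUnion_le)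

theorem sum_inv_rpow_le (i N : ℕ) :
    ∑ l ∈ Ico i N, 1 / (((l : ℝ) + 1) * √((l : ℝ) + 1)) ≤ 3 / √((i : ℝ) + 1) := by
  rcases le_or_gt N i with h | h
  · rw [Ico_eq_empty (not_lt.2 h), sum_empty]; positivity
  rw [sum_eq_sum_Ico_succ_bot h]
  have h1 : 1 / (((i : ℝ) + 1) * √((i : ℝ) + 1)) ≤ 1 / √((i : ℝ) + 1) :=
    one_div_le_one_div_of_le (by positivity)
      (le_mul_of_one_le_left (Real.sqrt_nonneg _) (by linarith [(Nat.cast_nonneg' i : (0 : ℝ) ≤ i)]))
  have h2 : ∀ l : ℕ, 1 ≤ l → 1 / (((l : ℝ) + 1) * √((l : ℝ) + 1)) ≤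
      -2 / √((l + 1 : ℕ) : ℝ) - -2 / √((l : ℕ) : ℝ) := by
    intro l hl
    have hl0 : (0 : ℝ) < l := Nat.cast_pos.2 hl
    obtain ⟨x, hx⟩ : ∃ x, x = √(l : ℝ) := ⟨_, rfl⟩
    obtain ⟨y, hy⟩ : ∃ y, y = √((l : ℝ) + 1) := ⟨_, rfl⟩
    have hx0 : 0 < x := hx ▸ Real.sqrt_pos.2 hl0
    have hy0 : 0 < y := hy ▸ Real.sqrt_pos.2 (by linarith)
    have hx2 : x ^ 2 = l := hx ▸ Real.sq_sqrt hl0.le
    have hy2 : y ^ 2 = l + 1 := hy ▸ Real.sq_sqrt (by linarith)
    have hxy : x ≤ y := hx ▸ hy ▸ Real.sqrt_le_sqrt (by linarith)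
    push_cast
    rw [← hx, ← hy, ← hy2, div_sub_div _ _ hy0.ne' hx0.ne', div_le_div_iff₀ (by positivity)
      (by positivity)]
    have h5 : (y - x) * (y + x) = 1 := by nlinarith
    nlinarith [mul_le_mul_of_nonneg_left (by linarith : x + y ≤ 2 * y)
      (mul_nonneg hy0.le (mul_nonneg hy0.le (sub_nonneg.2 hxy))), mul_pos hy0 hx0]
  have h3 : ∑ l ∈ Ico (i + 1) N, 1 / (((l : ℝ) + 1) * √((l : ℝ) + 1)) ≤ 2 / √((i : ℝ) + 1) := by
    refine (sum_le_sum fun l hl => h2 l (by have := (mem_Ico.1 hl).1; omega)).trans ?_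
    rw [sum_Ico_sub (fun l : ℕ => -2 / √(l : ℝ)) h]
    push_cast
    have : 0 ≤ 2 / √(N : ℝ) := by positivity
    simp only [neg_div]
    linarith
  calc _ ≤ 1 / √((i : ℝ) + 1) + 2 / √((i : ℝ) + 1) := add_le_add h1 h3
    _ = _ := by ring

/-- **Erdős's theorem.** -/
theorem exists_count_le (hA : SidonProp A) (N₀ : ℕ) : ∃ n, N₀ ≤ n ∧ 2 ≤ n ∧
    ({a | a ∈ A ∧ a ≤ n}.ncard : ℝ) ≤ 16 * √((n : ℝ) / Real.log n) := by
  classical
  by_contra hcon
  push Not at hcon
  obtain ⟨N, hN⟩ : ∃ N, N = N₀ + 8 := ⟨_, rfl⟩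
  have hN8 : (8 : ℝ) ≤ N := by exact_mod_cast (hN ▸ Nat.le_add_left 8 N₀)
  have hN0 : (0 : ℝ) < N := by linarith
  obtain ⟨L, hL⟩ : ∃ L, L = Real.log N := ⟨_, rfl⟩
  have hL2 : 2 ≤ L := by
    have h1 := Real.log_le_log (by norm_num) hN8
    have h2 : Real.log 8 = 3 * Real.log 2 := by
      rw [show (8 : ℝ) = 2 ^ 3 by norm_num, Real.log_pow]; norm_num
    rw [hL]
    linarith [Real.log_two_gt_d9]
  obtain ⟨D, hD⟩ : ∃ D : ℕ → ℝ, D = fun i => ((block A N i).card : ℝ) := ⟨_, rfl⟩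
  have hD0 : ∀ i, 0 ≤ D i := fun i => hD ▸ Nat.cast_nonneg' _
  obtain ⟨W, hW⟩ : ∃ W : ℕ → ℝ, W = fun l : ℕ => 1 / (((l : ℝ) + 1) * √((l : ℝ) + 1)) := ⟨_, rfl⟩
  obtain ⟨H, hH⟩ : ∃ H : ℝ, H = ∑ l ∈ range N, ((l : ℝ) + 1)⁻¹ := ⟨_, rfl⟩
  have hHeq : H = (harmonic N : ℝ) := by
    rw [hH]; simp [harmonic, Rat.cast_sum]
  have hH1 : L ≤ H := by
    rw [hHeq, hL]
    exact (Real.log_le_log hN0 (by simp)).trans (log_add_one_le_harmonic N)
  have hH2 : H ≤ 1 + L := hHeq ▸ hL ▸ harmonic_le_one_add_log N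
  have hlow : 16 * √((N : ℝ) / (2 * L)) * L ≤
      ∑ l ∈ range N, W l * (1 + ∑ i ∈ range (l + 1), D i) := by
    calc 16 * √((N : ℝ) / (2 * L)) * L ≤ 16 * √((N : ℝ) / (2 * L)) * H :=
          mul_le_mul_of_nonneg_left hH1 (by positivity)
      _ = ∑ l ∈ range N, W l * (16 * √((N : ℝ) / (2 * L)) * √((l : ℝ) + 1)) := by
          rw [hH, mul_sum]
          refine sum_congr rfl fun l _ => ?_
          have : 0 < √((l : ℝ) + 1) := Real.sqrt_pos.2 (by positivity)
          rw [hW]; field_simp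
      _ ≤ _ := by
          refine sum_le_sum fun l hl => mul_le_mul_of_nonneg_left ?_ (by rw [hW]; positivity)
          have hlN : (l + 1) * N ≤ N * N := Nat.mul_le_mul_right N (mem_range.1 hl)
          have hle : N ≤ (l + 1) * N := Nat.le_mul_of_pos_left N (by omega)
          have hgt := hcon ((l + 1) * N) (by omega) (by omega)
          have h1 := count_le_sum_block (A := A) N l
          have h2 : (({a | a ∈ A ∧ a ≤ (l + 1) * N}.ncard : ℕ) : ℝ) ≤
              1 + ∑ i ∈ range (l + 1), D i := by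
            rw [hD]; simp only; exact_mod_cast h1
          refine le_trans ?_ (hgt.le.trans h2)
          rw [mul_assoc, ← Real.sqrt_mul (by positivity)]
          refine mul_le_mul_of_nonneg_left (Real.sqrt_le_sqrt ?_) (by norm_num)
          have hm : (N : ℝ) ≤ (((l + 1) * N : ℕ) : ℝ) := Nat.cast_le.2 hle
          have hlogm : Real.log (((l + 1) * N : ℕ) : ℝ) ≤ 2 * L := by
            have h3 : Real.log (((l + 1) * N : ℕ) : ℝ) ≤ Real.log ((N : ℝ) * N) :=
              Real.log_le_log (by linarith) (by exact_mod_cast hlN)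
            rw [Real.log_mul hN0.ne' hN0.ne'] at h3
            linarith [hL]
          have hlogm0 : 0 < Real.log (((l + 1) * N : ℕ) : ℝ) := Real.log_pos (by linarith)
          rw [div_mul_eq_mul_div, div_le_div_iff₀ (by linarith) hlogm0]
          have hln : ((l + 1) * N : ℕ) = (N : ℝ) * ((l : ℝ) + 1) := by push_cast; ring
          rw [hln] at hlogm ⊢
          exact mul_le_mul_of_nonneg_left hlogm (by positivity)
  have hswap : ∑ l ∈ range N, W l * ∑ i ∈ range (l + 1), D i ≤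
      3 * ∑ i ∈ range N, D i * (1 / √((i : ℝ) + 1)) := by
    calc ∑ l ∈ range N, W l * ∑ i ∈ range (l + 1), D i
        = ∑ l ∈ range N, ∑ i ∈ range (l + 1), W l * D i := sum_congr rfl fun l _ => mul_sum _ _ _
      _ = ∑ i ∈ range N, ∑ l ∈ Ico i N, W l * D i :=
          sum_comm' fun l i => by simp only [mem_range, mem_Ico]; omega
      _ ≤ _ := by
          rw [mul_sum]
          refine sum_le_sum fun i _ => ?_
          rw [← sum_mul]
          refine le_trans (mul_le_mul_of_nonneg_right (hW ▸ sum_inv_rpow_le i N) (hD0 i)) (le_of_eq ?_)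
          ring
  obtain ⟨S, hS⟩ : ∃ S, S = ∑ i ∈ range N, D i * (1 / √((i : ℝ) + 1)) := ⟨_, rfl⟩
  rw [← hS] at hswap
  have hS2 : S ^ 2 ≤ 5 * N * (1 + L) := by
    rw [hS]
    refine (sum_mul_sq_le_sq_mul_sq _ _ _).trans
      (mul_le_mul (hD ▸ sum_block_sq_le hA N) ?_ (sum_nonneg fun i _ => sq_nonneg _) (by positivity))
    refine le_trans (le_of_eq (sum_congr rfl fun i _ => ?_)) (hH ▸ hH2)
    rw [div_pow, one_pow, Real.sq_sqrt (by positivity), one_div]
  have hW3 : ∑ l ∈ range N, W l ≤ 3 := by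
    rw [hW, range_eq_Ico]
    exact (sum_inv_rpow_le 0 N).trans (le_of_eq (by simp))
  have htot : 16 * √((N : ℝ) / (2 * L)) * L ≤ 3 + 3 * S := by
    refine hlow.trans ?_
    simp only [mul_add, mul_one, sum_add_distrib]
    linarith
  obtain ⟨R, hR⟩ : ∃ R, R = √((N : ℝ) / (2 * L)) * L := ⟨_, rfl⟩
  have hR2 : R ^ 2 = (N : ℝ) * L / 2 := by
    rw [hR, mul_pow, Real.sq_sqrt (by positivity)]; field_simp
  have hR0 : 0 ≤ R := hR ▸ mul_nonneg (Real.sqrt_nonneg _) (by linarith)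
  rw [mul_assoc, ← hR] at htot
  have hR1 : 2 ≤ R := by nlinarith
  have hS0 : 0 ≤ 3 * S := by nlinarith
  nlinarith [pow_le_pow_left₀ (by linarith) (show 14 * R ≤ 3 * S by linarith) 2]

end FA.InfiniteSidon
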