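import Fermat.Agent.InfiniteSidon.Coding
import Mathlib.NumberTheory.Chebyshev
import Mathlib.Analysis.SpecificLimits.Normed
import Mathlib.Data.Set.Card
import Mathlib.Analysis.Complex.ExponentialBounds

/-!
# The size of Ruzsa's set

Few primes of a class begin a coincidence, so the set has at least
`N ^ (√2 - 1) exp (-6 √(log N))` elements up to `N`.
-/

set_option autoImplicit false

noncomputable section

namespace FA.InfiniteSidon

open Finset Filter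

theorem primeFactors_card_le {n e : ℕ} (hn : n ≠ 0) (he : n ≤ 2 ^ e) :
    n.primeFactors.card ≤ e :=
  (Nat.pow_le_pow_iff_right (by norm_num : 1 < 2)).1 (le_trans
    (pow_card_le_prod _ _ 2 fun p hp => (Nat.prime_of_mem_primeFactors hp).two_le)
    ((Nat.le_of_dvd (Nat.pos_of_ne_zero hn) (Nat.prod_primeFactors_dvd n)).trans he))

open Classical in
/-- The bad primes of class `k` with witnesses in class `l`. -/
def badAt (k l : ℕ) : Finset ℕ :=
  (classPrimes k).filter fun p => ∃ r ∈ classPrimes k, ∃ p' ∈ classPrimes l, ∃ r' ∈ classPrimes l,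
    p ≠ r ∧ p * p' ≠ r * r' ∧ (qprod 0 l : ℤ) ∣ (p * p' : ℕ) - ((r * r' : ℕ) : ℤ) ∧
      (qprod l k : ℤ) ∣ (p : ℤ) - r

theorem badAt_eq_empty_of_lt {k l : ℕ} (h : 2 ^ (size k + size l) < qprod 0 l) :
    badAt k l = ∅ := by
  classical
  refine eq_empty_of_forall_notMem fun p hp => ?_
  obtain ⟨hpk, r, hr, p', hp', r', hr', -, hne, hd, -⟩ := mem_filter.1 hp
  have h1 : p * p' ≤ 2 ^ (size k + size l) := by
    rw [pow_add]; exact Nat.mul_le_mul (classPrimes_spec hpk).2.1 (classPrimes_spec hp').2.1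
  have h2 : r * r' ≤ 2 ^ (size k + size l) := by
    rw [pow_add]; exact Nat.mul_le_mul (classPrimes_spec hr).2.1 (classPrimes_spec hr').2.1
  have := Int.eq_zero_of_abs_lt_dvd hd (by rw [abs_lt]; constructor <;> omega)
  omega

/-- **Coincidences in the classes `k`, `l`**: they are given by two small integers and a prime. -/
theorem badAt_card_mul_le {k l : ℕ} (hl : l ≤ k) :
    (badAt k l).card * 2 ^ (k ^ 2 + k) ≤
      8 * (2 * k ^ 2 + 1) * 2 ^ (2 * size k + 2 * size l) := by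
  classical
  obtain ⟨u, hu⟩ : ∃ u, u = size k := ⟨_, rfl⟩
  obtain ⟨v, hv⟩ : ∃ v, v = size l := ⟨_, rfl⟩
  obtain ⟨Q, hQ⟩ : ∃ Q, Q = qprod 0 l := ⟨_, rfl⟩
  obtain ⟨R, hR⟩ : ∃ R, R = qprod l k := ⟨_, rfl⟩
  have hQ0 : 0 < Q := hQ ▸ qprod_pos _ _
  have hR0 : 0 < R := hR ▸ qprod_pos _ _
  obtain ⟨S, hS⟩ : ∃ S, S = 2 ^ u / R := ⟨_, rfl⟩
  obtain ⟨T, hT⟩ : ∃ T, T = 2 ^ (u + v) / Q := ⟨_, rfl⟩
  obtain ⟨W, hW⟩ : ∃ W : Finset (ℤ × ℤ × ℕ),
      W = ((Icc (-(S : ℤ)) S).erase 0) ×ˢ (((Icc (-(T : ℤ)) T).erase 0) ×ˢ range (2 ^ v + 1)) :=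
    ⟨_, rfl⟩
  obtain ⟨M, hM⟩ : ∃ M : ℤ × ℤ × ℕ → ℕ,
      M = fun w => (w.2.1 * Q - w.1 * R * (w.2.2 : ℤ)).natAbs := ⟨_, rfl⟩
  have hsub : badAt k l ⊆ (W.filter fun w => M w ≠ 0).biUnion fun w => (M w).primeFactors := by
    intro p hp
    obtain ⟨hpk, r, hr, p', hp', r', hr', hpr, hne, hd₁, hd₂⟩ := mem_filter.1 hp
    rw [← hQ] at hd₁
    rw [← hR] at hd₂
    obtain ⟨t, ht⟩ := hd₁
    obtain ⟨s, hs⟩ := hd₂
    push_cast at ht
    obtain ⟨hpp, hpu, -, hpq⟩ := classPrimes_spec hpk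
    obtain ⟨hrp, hru, -, -⟩ := classPrimes_spec hr
    obtain ⟨hp'p, hp'v, -, hp'q⟩ := classPrimes_spec hp'
    obtain ⟨hr'p, hr'v, -, -⟩ := classPrimes_spec hr'
    rw [← hu] at hpu hru
    rw [← hv] at hp'v hr'v
    have hs0 : s ≠ 0 := by
      rintro rfl
      rw [mul_zero, sub_eq_zero] at hs
      exact hpr (Int.natCast_inj.1 hs)
    have ht0 : t ≠ 0 := by
      rintro rfl
      rw [mul_zero, sub_eq_zero] at ht
      exact hne (by exact_mod_cast ht)
    have hsb : s.natAbs * R ≤ 2 ^ u := by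
      have h1 : ((s.natAbs * R : ℕ) : ℤ) ≤ ((2 ^ u : ℕ) : ℤ) := by
        rw [Nat.cast_mul, Int.natCast_natAbs,
          ← abs_of_nonneg (Nat.cast_nonneg' (α := ℤ) R), ← abs_mul, mul_comm, ← hs, abs_le]
        constructor <;> omega
      exact_mod_cast h1
    have htb : t.natAbs * Q ≤ 2 ^ (u + v) := by
      have h2 : p * p' ≤ 2 ^ (u + v) := by rw [pow_add]; exact Nat.mul_le_mul hpu hp'v
      have h3 : r * r' ≤ 2 ^ (u + v) := by rw [pow_add]; exact Nat.mul_le_mul hru hr'v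
      have h1 : ((t.natAbs * Q : ℕ) : ℤ) ≤ ((2 ^ (u + v) : ℕ) : ℤ) := by
        rw [Nat.cast_mul, Int.natCast_natAbs,
          ← abs_of_nonneg (Nat.cast_nonneg' (α := ℤ) Q), ← abs_mul, mul_comm, ← ht, abs_le]
        have h2' : ((p : ℤ) * p') ≤ ((2 ^ (u + v) : ℕ) : ℤ) := by exact_mod_cast h2
        have h3' : ((r : ℤ) * r') ≤ ((2 ^ (u + v) : ℕ) : ℤ) := by exact_mod_cast h3
        have h4 : (0 : ℤ) ≤ (p : ℤ) * p' := by positivity
        have h5 : (0 : ℤ) ≤ (r : ℤ) * r' := by positivity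
        constructor <;> omega
      exact_mod_cast h1
    have hid : t * Q - s * R * (r' : ℤ) = (p : ℤ) * ((p' : ℤ) - r') := by
      linear_combination (-1 : ℤ) * ht + (r' : ℤ) * hs
    have hne' : p' ≠ r' := by
      rintro rfl
      have hd : (Q : ℤ) ∣ (p : ℤ) - r := by
        refine hQ ▸ qprod_dvd fun j _ hj => ?_
        have h1 : (qmod j : ℤ) ∣ ((p : ℤ) - r) * p' := by
          refine dvd_trans ?_ (⟨t, by linear_combination ht⟩ : (Q : ℤ) ∣ ((p : ℤ) - r) * p')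
          rw [hQ]
          exact Int.natCast_dvd_natCast.2 (dvd_prod_of_mem _ (mem_Ico.2 ⟨Nat.zero_le _, hj⟩))
        rw [← ZMod.intCast_zmod_eq_zero_iff_dvd] at h1
        push_cast at h1
        rcases mul_eq_zero.1 h1 with h1 | h1
        · exact sub_eq_zero.1 h1
        · exact absurd ((ZMod.natCast_eq_zero_iff p' _).1 h1) (hp'q j hj)
      have hd' : (qprod 0 k : ℤ) ∣ (p : ℤ) - r := by
        rw [← qprod_mul hl, Nat.cast_mul, ← hQ, ← hR]
        refine IsCoprime.mul_dvd (Nat.isCoprime_iff_coprime.2 ?_) hd ⟨s, hs⟩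
        rw [hQ, hR]
        refine Nat.Coprime.prod_left fun i hi => Nat.Coprime.prod_right fun j hj => ?_
        refine (Nat.coprime_primes (qmod_spec i).1 (qmod_spec j).1).2
          (qmod_strictMono.injective.ne ?_)
        have := (mem_Ico.1 hi).2
        have := (mem_Ico.1 hj).1
        omega
      exact hpr (not_qprod_dvd_sub hpk hr hd')
    have hMw : M (s, t, r') = ((p : ℤ) * ((p' : ℤ) - r')).natAbs := by rw [hM, ← hid]
    have hM0 : M (s, t, r') ≠ 0 := by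
      rw [hMw, Int.natAbs_ne_zero]
      exact mul_ne_zero (Int.natCast_ne_zero.2 hpp.ne_zero) (sub_ne_zero.2 fun h =>
        hne' (Int.natCast_inj.1 h))
    refine mem_biUnion.2 ⟨(s, t, r'), mem_filter.2 ⟨?_, hM0⟩,
      Nat.mem_primeFactors.2 ⟨hpp, ?_, hM0⟩⟩
    · have hs1 : s.natAbs ≤ S := hS ▸ (Nat.le_div_iff_mul_le hR0).2 hsb
      have ht1 : t.natAbs ≤ T := hT ▸ (Nat.le_div_iff_mul_le hQ0).2 htb
      rw [hW]
      simp only [mem_product, mem_erase, mem_Icc, mem_range]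
      exact ⟨⟨hs0, by omega, by omega⟩, ⟨ht0, by omega, by omega⟩, by omega⟩
    · rw [hMw, Int.natAbs_mul, Int.natAbs_natCast]
      exact dvd_mul_right _ _
  have hfac : ∀ w ∈ W.filter fun w => M w ≠ 0, (M w).primeFactors.card ≤ 2 * k ^ 2 + 1 := by
    intro w hw
    obtain ⟨hw1, hw2⟩ := mem_filter.1 hw
    rw [hW] at hw1
    simp only [mem_product, mem_erase, mem_Icc, mem_range] at hw1
    refine (primeFactors_card_le (e := u + v + 1) hw2 ?_).trans ?_
    · have h1 : w.2.1.natAbs * Q ≤ 2 ^ (u + v) :=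
        (Nat.mul_le_mul_right Q (show w.2.1.natAbs ≤ T by omega)).trans
          (hT ▸ Nat.div_mul_le_self _ _)
      have h2 : w.1.natAbs * R * w.2.2 ≤ 2 ^ (u + v) := by
        rw [pow_add]
        exact Nat.mul_le_mul ((Nat.mul_le_mul_right R (show w.1.natAbs ≤ S by omega)).trans
          (hS ▸ Nat.div_mul_le_self _ _)) (by omega)
      rw [hM]
      refine (Int.natAbs_sub_le _ _).trans ?_
      simp only [Int.natAbs_mul, Int.natAbs_natCast]
      rw [pow_succ]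
      omega
    · have := size_le k
      have := size_mono hl
      omega
  have hcard : W.card = 2 * S * (2 * T * (2 ^ v + 1)) := by
    have h1 : ∀ n : ℕ, ((Icc (-(n : ℤ)) n).erase 0).card = 2 * n := fun n => by
      rw [card_erase_of_mem (mem_Icc.2 ⟨by omega, by omega⟩), Int.card_Icc]
      omega
    rw [hW, card_product, card_product, h1, h1, card_range]
  have hST : S * T * qprod 0 k ≤ 2 ^ (2 * u + v) := by
    calc S * T * qprod 0 k = (S * R) * (T * Q) := by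
          rw [← qprod_mul hl, ← hQ, ← hR]; ring
      _ ≤ 2 ^ u * 2 ^ (u + v) :=
          Nat.mul_le_mul (hS ▸ Nat.div_mul_le_self _ _) (hT ▸ Nat.div_mul_le_self _ _)
      _ = _ := by rw [← pow_add]; congr 1; ring
  calc (badAt k l).card * 2 ^ (k ^ 2 + k)
      ≤ 2 * S * (2 * T * (2 ^ v + 1)) * (2 * k ^ 2 + 1) * 2 ^ (k ^ 2 + k) := by
        refine Nat.mul_le_mul_right _ ((card_le_card hsub).trans ?_)
        refine (card_biUnion_le_card_mul _ _ _ hfac).trans (Nat.mul_le_mul_right _ ?_)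
        exact hcard ▸ card_filter_le _ _
    _ ≤ 2 * S * (2 * T * (2 * 2 ^ v)) * (2 * k ^ 2 + 1) * qprod 0 k :=
        Nat.mul_le_mul (Nat.mul_le_mul_right _ (Nat.mul_le_mul_left _ (Nat.mul_le_mul_left _ (by
          have := Nat.one_le_two_pow (n := v); omega)))) (two_pow_le_qprod k)
    _ = 8 * (2 * k ^ 2 + 1) * (S * T * qprod 0 k * 2 ^ v) := by ring
    _ ≤ 8 * (2 * k ^ 2 + 1) * (2 ^ (2 * u + v) * 2 ^ v) :=
        Nat.mul_le_mul_left _ (Nat.mul_le_mul_right _ hST)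
    _ = _ := by rw [← hu, ← hv, ← pow_add]; congr 2; ring

/-- **The exponents at `√2 - 1` balance.** -/
theorem size_add_le {k l : ℕ} (hk : (k : ℝ) ≤ sidonExp * (k : ℝ) ^ 2)
    (hl : l ^ 2 + l ≤ size k + size l) : size k + 2 * size l + k ≤ k ^ 2 := by
  have hc := sidonExp_bounds
  have hv := size_le_real l
  have hu : (size k : ℝ) ≤ sidonExp * (k : ℝ) ^ 2 - k := Nat.floor_le (by linarith)
  have hl' : (l : ℝ) ^ 2 + l ≤ size k + size l := by exact_mod_cast hl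
  have h1 : (size l : ℝ) * (1 - sidonExp) ≤ sidonExp * size k := by
    nlinarith [mul_nonneg (show (0 : ℝ) ≤ sidonExp by linarith) (Nat.cast_nonneg' l : (0 : ℝ) ≤ l)]
  have h3 : ((size k : ℝ) + 2 * size l) * (1 - sidonExp) ≤
      ((k : ℝ) ^ 2 - k) * (1 - sidonExp) := by
    have h5 : (1 + sidonExp) * (size k : ℝ) ≤ (1 + sidonExp) * (sidonExp * (k : ℝ) ^ 2 - k) :=
      mul_le_mul_of_nonneg_left hu (by linarith)
    have h6 : (1 + sidonExp) * (sidonExp * (k : ℝ) ^ 2 - k) =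
        (1 - sidonExp) * (k : ℝ) ^ 2 - (1 + sidonExp) * k := by
      linear_combination (k : ℝ) ^ 2 * sidonExp_mul
    nlinarith [mul_nonneg (show (0 : ℝ) ≤ sidonExp by linarith) (Nat.cast_nonneg' k : (0 : ℝ) ≤ k)]
  have h4 := le_of_mul_le_mul_right h3 (by linarith)
  have : ((size k + 2 * size l + k : ℕ) : ℝ) ≤ ((k ^ 2 : ℕ) : ℝ) := by push_cast; linarith
  exact_mod_cast this

theorem badAt_card_le {k l : ℕ} (hl : l ≤ k) (hk : (k : ℝ) ≤ sidonExp * (k : ℝ) ^ 2) :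
    (badAt k l).card * 2 ^ (2 * k) ≤ 8 * (2 * k ^ 2 + 1) * 2 ^ size k := by
  rcases lt_or_ge (2 ^ (size k + size l)) (qprod 0 l) with h | h
  · simp [badAt_eq_empty_of_lt h]
  have hexp : l ^ 2 + l ≤ size k + size l :=
    (Nat.pow_le_pow_iff_right (by norm_num : 1 < 2)).1 ((two_pow_le_qprod l).trans h)
  have h1 := size_add_le hk hexp
  refine Nat.le_of_mul_le_mul_right ?_ (pow_pos two_pos (k ^ 2 + k))
  calc (badAt k l).card * 2 ^ (2 * k) * 2 ^ (k ^ 2 + k)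
      = (badAt k l).card * 2 ^ (k ^ 2 + k) * 2 ^ (2 * k) := by ring
    _ ≤ 8 * (2 * k ^ 2 + 1) * 2 ^ (2 * size k + 2 * size l) * 2 ^ (2 * k) :=
        Nat.mul_le_mul_right _ (badAt_card_mul_le hl)
    _ ≤ 8 * (2 * k ^ 2 + 1) * (2 ^ size k * 2 ^ (k ^ 2 + k)) := by
        rw [mul_assoc, ← pow_add, ← pow_add]
        exact Nat.mul_le_mul_left _ (Nat.pow_le_pow_right two_pos (by omega))
    _ = _ := by ring

theorem eventually_poly_le : ∀ᶠ k : ℕ in atTop, 1000 * k ^ 5 ≤ 2 ^ (k / 2) := by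
  have h := tendsto_pow_const_div_const_pow_of_one_lt 5 (by norm_num : (1 : ℝ) < 2)
  have h2 : Tendsto (fun k : ℕ => k / 2) atTop atTop :=
    tendsto_atTop_atTop.2 fun b => ⟨2 * b, fun k hk => by omega⟩
  filter_upwards [h2.eventually (h.eventually_le_const (show (0 : ℝ) < 1 / (1000 * 3 ^ 5) by
    norm_num)), eventually_ge_atTop 2] with k hk hk2
  rw [div_le_iff₀ (by positivity), one_div_mul_eq_div, le_div_iff₀ (by norm_num)] at hk
  have h3 : k ≤ 3 * (k / 2) := by omega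
  calc 1000 * k ^ 5 ≤ 1000 * (3 * (k / 2)) ^ 5 :=
        Nat.mul_le_mul_left _ (Nat.pow_le_pow_left h3 5)
    _ = (k / 2) ^ 5 * (1000 * 3 ^ 5) := by ring
    _ ≤ _ := by exact_mod_cast hk

/-- **Most primes of a class are good.** -/
theorem eventually_goodPrimes_card :
    ∀ᶠ k : ℕ in atTop, (2 : ℝ) ^ (size k : ℕ) ≤ (goodPrimes k).card * (2 : ℝ) ^ k := by
  classical
  filter_upwards [eventually_poly_le, eventually_ge_atTop 10] with k hpoly hk10
  have hk : (10 : ℝ) ≤ k := by exact_mod_cast hk10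
  have hc := sidonExp_bounds
  have hkc : (k : ℝ) ≤ sidonExp * (k : ℝ) ^ 2 := by nlinarith
  obtain ⟨u, hu⟩ : ∃ u, u = size k := ⟨_, rfl⟩
  have hgap : size (k - 1) + k / 2 ≤ u := by
    have h1 : (size (k - 1) : ℝ) ≤ sidonExp * ((k : ℝ) - 1) ^ 2 - ((k : ℝ) - 1) := by
      rw [size, Nat.cast_sub (by omega), Nat.cast_one]
      exact Nat.floor_le (by nlinarith)
    have h2 : sidonExp * (k : ℝ) ^ 2 - k - 1 ≤ u := by
      rw [hu, size]; exact (Nat.sub_one_lt_floor _).le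
    have h3 : (((k / 2 : ℕ) : ℝ)) ≤ (k : ℝ) / 2 := Nat.cast_div_le
    have : ((size (k - 1) + k / 2 : ℕ) : ℝ) ≤ u := by push_cast; nlinarith
    exact_mod_cast this
  have hu0 : 0 < u := by omega
  have huk : u ≤ k ^ 2 := hu ▸ size_le k
  rw [← hu]
  obtain ⟨w, hw⟩ : ∃ w, w = size (k - 1) := ⟨_, rfl⟩
  rw [← hw] at hgap
  have hbad : (goodPrimes k).card + ∑ l ∈ range (k + 1), (badAt k l).card ≥
      (classPrimes k).card := by
    refine le_trans (card_le_card (t := goodPrimes k ∪ (range (k + 1)).biUnion (badAt k))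
      fun p hp => ?_) ((card_union_le _ _).trans (Nat.add_le_add_left card_biUnion_le _))
    by_cases hb : IsBad k p
    · obtain ⟨l, hl, hrest⟩ := hb
      exact mem_union_right _ (mem_biUnion.2
        ⟨l, mem_range.2 (Nat.lt_succ_of_le hl), mem_filter.2 ⟨hp, hrest⟩⟩)
    · exact mem_union_left _ (mem_filter.2 ⟨hp, hb⟩)
  have hclass : Nat.primeCounting (2 ^ u) ≤ (classPrimes k).card + (2 ^ w + 1) + k := by
    rw [← Nat.primesLE_card_eq_primeCounting]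
    refine le_trans (card_le_card (t := classPrimes k ∪ range (2 ^ w + 1) ∪ (range k).image qmod)
      fun p hp => ?_) ((card_union_le _ _).trans (Nat.add_le_add ((card_union_le _ _).trans
        (Nat.add_le_add_left (le_of_eq (card_range _)) _)) (card_image_le.trans (by simp))))
    rw [Nat.mem_primesLE] at hp
    simp only [mem_union, mem_range, mem_image]
    by_cases h1 : ∀ i < k, 2 ^ size i < p
    · by_cases h2 : ∀ j < k, qmod j ≠ p
      · exact Or.inl (Or.inl (mem_filter.2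
          ⟨mem_range.2 (Nat.lt_succ_of_le (hu ▸ hp.1)), hp.2, h1, h2⟩))
      · push Not at h2
        obtain ⟨j, hj, hjp⟩ := h2
        exact Or.inr ⟨j, hj, hjp⟩
    · push Not at h1
      obtain ⟨i, hi, hip⟩ := h1
      exact Or.inl (Or.inr (Nat.lt_succ_of_le (hip.trans
        (Nat.pow_le_pow_right two_pos (hw ▸ size_mono (by omega))))))
  have hcheb : (2 : ℝ) ^ u ≤ ((Nat.primeCounting (2 ^ u) : ℝ) + 2) * u := by
    have h1 := Chebyshev.pi_ge (2 ^ u)
    have hlog2 := Real.log_pos one_lt_two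
    rw [Nat.cast_pow, Nat.cast_two, Real.log_pow, div_le_iff₀ (by positivity)] at h1
    have h2 : Real.log ((2 : ℝ) ^ u + 1) ≤ ((u : ℝ) + 1) * Real.log 2 := by
      rw [show ((u : ℝ) + 1) = ((u + 1 : ℕ) : ℝ) by push_cast; ring, ← Real.log_pow]
      exact Real.log_le_log (by positivity)
        (by rw [pow_succ]; linarith [one_le_pow₀ (one_le_two : (1 : ℝ) ≤ 2) (n := u)])
    have hu1 : (1 : ℝ) ≤ u := Nat.one_le_cast.2 hu0
    refine le_of_mul_le_mul_right (a := Real.log 2) ?_ hlog2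
    nlinarith
  have hsum : (∑ l ∈ range (k + 1), (badAt k l).card) * 2 ^ (2 * k) ≤
      (k + 1) * (8 * (2 * k ^ 2 + 1) * 2 ^ u) := by
    rw [sum_mul]
    refine (sum_le_card_nsmul _ _ _ fun l hl => hu ▸ badAt_card_le
      (Nat.le_of_lt_succ (mem_range.1 hl)) hkc).trans (by simp)
  obtain ⟨b, hb⟩ : ∃ b, b = ∑ l ∈ range (k + 1), (badAt k l).card := ⟨_, rfl⟩
  rw [← hb] at hbad hsum
  -- both error terms are small compared with `2 ^ u / k ^ 2`
  have hP : (1000 : ℝ) * (k : ℝ) ^ 5 ≤ (2 : ℝ) ^ (k / 2 : ℕ) := by exact_mod_cast hpoly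
  have hpk : (2 : ℝ) ^ (k / 2 : ℕ) ≤ (2 : ℝ) ^ k := pow_le_pow_right₀ one_le_two (Nat.div_le_self k 2)
  have hpu : (2 : ℝ) ^ w * (2 : ℝ) ^ (k / 2 : ℕ) ≤ (2 : ℝ) ^ u := by
    rw [← pow_add]; exact pow_le_pow_right₀ one_le_two hgap
  have hK : (1 : ℝ) ≤ (k : ℝ) ^ 2 := one_le_pow₀ (by linarith)
  have hw1 : (1 : ℝ) ≤ (2 : ℝ) ^ w := one_le_pow₀ one_le_two
  have hA : (k : ℝ) ^ 2 * ((2 : ℝ) ^ w + 1 + k + 2) ≤ (2 : ℝ) ^ u / 4 := by
    have h1 : (k : ℝ) ^ 2 * ((2 : ℝ) ^ w + 1 + k + 2) ≤ (k : ℝ) ^ 2 * ((2 : ℝ) ^ w * (5 * k)) :=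
      mul_le_mul_of_nonneg_left (by nlinarith) (by positivity)
    have h2 : (20 : ℝ) * (k : ℝ) ^ 3 ≤ (2 : ℝ) ^ (k / 2 : ℕ) := by
      refine le_trans ?_ hP
      calc (20 : ℝ) * (k : ℝ) ^ 3 ≤ 1000 * (k : ℝ) ^ 3 * 1 := by nlinarith
        _ ≤ 1000 * (k : ℝ) ^ 3 * (k : ℝ) ^ 2 := mul_le_mul_of_nonneg_left hK (by positivity)
        _ = _ := by ring
    nlinarith [mul_le_mul_of_nonneg_left h2 (zero_le_one.trans hw1)]
  have hB : (k : ℝ) ^ 2 * b ≤ (2 : ℝ) ^ u / 4 := by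
    have h1 : (b : ℝ) * ((2 : ℝ) ^ k) ^ 2 ≤
        ((k : ℝ) + 1) * (8 * (2 * (k : ℝ) ^ 2 + 1) * (2 : ℝ) ^ u) := by
      rw [← pow_mul, mul_comm k 2]; exact_mod_cast hsum
    have h2 : (k : ℝ) ^ 2 * (((k : ℝ) + 1) * (8 * (2 * (k : ℝ) ^ 2 + 1))) ≤
        ((2 : ℝ) ^ k) ^ 2 / 4 := by
      calc (k : ℝ) ^ 2 * (((k : ℝ) + 1) * (8 * (2 * (k : ℝ) ^ 2 + 1)))
          ≤ (k : ℝ) ^ 2 * ((2 * k) * (24 * (k : ℝ) ^ 2)) := by
            refine mul_le_mul_of_nonneg_left ?_ (by positivity)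
            exact mul_le_mul (by linarith) (by nlinarith) (by positivity) (by positivity)
        _ ≤ (2 : ℝ) ^ k / 4 := by
            rw [show (k : ℝ) ^ 2 * (2 * k * (24 * (k : ℝ) ^ 2)) = 48 * (k : ℝ) ^ 5 by ring]
            linarith [show (0 : ℝ) ≤ (k : ℝ) ^ 5 by positivity]
        _ ≤ _ := by
            refine div_le_div_of_nonneg_right ?_ (by norm_num)
            exact le_self_pow₀ (one_le_pow₀ one_le_two) (by norm_num)
    refine le_of_mul_le_mul_right (a := ((2 : ℝ) ^ k) ^ 2) ?_ (by positivity)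
    calc (k : ℝ) ^ 2 * b * ((2 : ℝ) ^ k) ^ 2
        ≤ (k : ℝ) ^ 2 * (((k : ℝ) + 1) * (8 * (2 * (k : ℝ) ^ 2 + 1) * (2 : ℝ) ^ u)) := by
          rw [mul_assoc]; exact mul_le_mul_of_nonneg_left h1 (by positivity)
      _ = (k : ℝ) ^ 2 * (((k : ℝ) + 1) * (8 * (2 * (k : ℝ) ^ 2 + 1))) * (2 : ℝ) ^ u := by ring
      _ ≤ ((2 : ℝ) ^ k) ^ 2 / 4 * (2 : ℝ) ^ u := mul_le_mul_of_nonneg_right h2 (by positivity)
      _ = _ := by ring
  have hbad' : ((classPrimes k).card : ℝ) ≤ (goodPrimes k).card + b := by exact_mod_cast hbad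
  have hclass' : (Nat.primeCounting (2 ^ u) : ℝ) ≤
      (classPrimes k).card + ((2 : ℝ) ^ w + 1) + k := by exact_mod_cast hclass
  have hG : (2 : ℝ) ^ u / 2 ≤ (goodPrimes k).card * (k : ℝ) ^ 2 := by
    have hu2 : (u : ℝ) ≤ (k : ℝ) ^ 2 := by exact_mod_cast huk
    have := hcheb.trans (mul_le_mul_of_nonneg_left hu2 (by positivity))
    nlinarith
  calc (2 : ℝ) ^ u ≤ (goodPrimes k).card * (2 * (k : ℝ) ^ 2) := by linarith
    _ ≤ _ := by
        refine mul_le_mul_of_nonneg_left ?_ (Nat.cast_nonneg' _)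
        refine le_trans ?_ (hP.trans hpk)
        nlinarith [pow_le_pow_right₀ (show (1 : ℝ) ≤ k by linarith) (show 2 ≤ 5 by norm_num)]

theorem goodPrimes_card_le_count {k N : ℕ} (h : 2 ^ (k ^ 2 + 4 * k) ≤ N) :
    (goodPrimes k).card ≤ {a | a ∈ ruzsaSet ∧ a ≤ N}.ncard := by
  classical
  rw [← card_image_of_injOn (s := goodPrimes k) (f := code k) fun p hp r hr e =>
    (code_injective (mem_filter.1 hp).1 (mem_filter.1 hr).1 e).2, ← Set.ncard_coe_finset]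
  refine Set.ncard_le_ncard (fun a ha => ?_) ((Set.finite_le_nat N).subset fun a ha => ha.2)
  obtain ⟨p, hp, rfl⟩ := mem_image.1 ha
  exact ⟨⟨k, p, hp, rfl⟩, ((code_lt_radix k p).le.trans (radix_le k)).trans h⟩

/-- **Ruzsa's theorem.** -/
theorem eventually_ruzsaSet_count : ∀ᶠ N : ℕ in atTop,
    (N : ℝ) ^ sidonExp * Real.exp (-6 * √(Real.log N)) ≤
      ({a | a ∈ ruzsaSet ∧ a ≤ N}.ncard : ℝ) := by
  obtain ⟨k₀, hk₀⟩ := eventually_atTop.1 eventually_goodPrimes_card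
  filter_upwards [eventually_ge_atTop (2 ^ ((k₀ + 3) ^ 2))] with N hN
  have hN0 : N ≠ 0 := by have := Nat.one_le_two_pow (n := (k₀ + 3) ^ 2); omega
  obtain ⟨L, hL⟩ : ∃ L, L = Nat.log 2 N := ⟨_, rfl⟩
  have hLk : (k₀ + 3) ^ 2 ≤ L := hL ▸ Nat.le_log_of_pow_le (by norm_num) hN
  obtain ⟨k, hk⟩ : ∃ k, k + 2 = Nat.sqrt L := ⟨Nat.sqrt L - 2, by
    have := Nat.le_sqrt'.2 hLk; omega⟩
  have hk0 : k₀ ≤ k := by have := Nat.le_sqrt'.2 hLk; omega
  have hcode : 2 ^ (k ^ 2 + 4 * k) ≤ N := by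
    refine (Nat.pow_le_pow_right two_pos ?_).trans (hL ▸ Nat.pow_log_le_self 2 hN0)
    have := Nat.sqrt_le' L
    rw [← hk] at this
    linarith [show (k + 2) ^ 2 = k ^ 2 + 4 * k + 4 by ring]
  refine le_trans ?_ (Nat.cast_le.2 (goodPrimes_card_le_count hcode))
  refine le_of_mul_le_mul_right ?_ (show (0 : ℝ) < 2 ^ k by positivity)
  refine le_trans ?_ (hk₀ k hk0)
  have hlog2 := Real.log_pos one_lt_two
  obtain ⟨x, hx⟩ : ∃ x, x = √(Real.log N / Real.log 2) := ⟨_, rfl⟩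
  have hNlog : 0 ≤ Real.log N := Real.log_natCast_nonneg N
  have hx2 : x ^ 2 = Real.log N / Real.log 2 := hx ▸ Real.sq_sqrt (by positivity)
  have hx0 : 0 ≤ x := hx ▸ Real.sqrt_nonneg _
  have hupper : x ≤ (k : ℝ) + 3 := by
    have h1 : N < 2 ^ ((k + 3) ^ 2) := by
      refine lt_of_lt_of_le (hL ▸ Nat.lt_pow_succ_log_self (by norm_num) N)
        (Nat.pow_le_pow_right two_pos ?_)
      have := Nat.lt_succ_sqrt' L
      rw [← hk] at this
      exact Nat.succ_le_of_lt this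
    have h2 : Real.log N ≤ ((k : ℝ) + 3) ^ 2 * Real.log 2 := by
      rw [show ((k : ℝ) + 3) ^ 2 = (((k + 3) ^ 2 : ℕ) : ℝ) by push_cast; ring, ← Real.log_pow]
      exact Real.log_le_log (Nat.cast_pos.2 (Nat.pos_of_ne_zero hN0)) (by exact_mod_cast h1.le)
    rw [hx, Real.sqrt_le_iff]
    exact ⟨by positivity, (div_le_iff₀ hlog2).2 h2⟩
  have hlower : (k : ℝ) + 2 ≤ x := by
    rw [hx, Real.le_sqrt (by positivity) (by positivity), le_div_iff₀ hlog2,
      show ((k : ℝ) + 2) ^ 2 = (((k + 2) ^ 2 : ℕ) : ℝ) by push_cast; ring, ← Real.log_pow]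
    refine Real.log_le_log (by positivity) ?_
    have h1 : 2 ^ ((k + 2) ^ 2) ≤ N :=
      (Nat.pow_le_pow_right two_pos (hk ▸ Nat.sqrt_le' L)).trans (hL ▸ Nat.pow_log_le_self 2 hN0)
    exact_mod_cast h1
  have hsize : sidonExp * (k : ℝ) ^ 2 - k - 1 ≤ size k := (Nat.sub_one_lt_floor _).le
  have hc := sidonExp_bounds
  have hsq : √(Real.log 2) ≤ 1 := by
    rw [Real.sqrt_le_iff]
    exact ⟨zero_le_one, by linarith [Real.log_two_lt_d9]⟩
  have hsx : x * Real.log 2 ≤ √(Real.log N) := by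
    rw [hx, Real.sqrt_div' _ hlog2.le, div_mul_eq_mul_div, div_le_iff₀ (Real.sqrt_pos.2 hlog2)]
    refine mul_le_mul_of_nonneg_left ?_ (Real.sqrt_nonneg _)
    calc Real.log 2 = √(Real.log 2) * √(Real.log 2) := (Real.mul_self_sqrt hlog2.le).symm
      _ ≤ _ := mul_le_of_le_one_left (Real.sqrt_nonneg _) hsq
  rw [← Real.rpow_natCast (2 : ℝ) (size k), ← Real.rpow_natCast (2 : ℝ) k,
    Real.rpow_def_of_pos two_pos, Real.rpow_def_of_pos two_pos,
    Real.rpow_def_of_pos (Nat.cast_pos.2 (Nat.pos_of_ne_zero hN0)), ← Real.exp_add, ← Real.exp_add,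
    Real.exp_le_exp]
  have hlogN : Real.log N = x ^ 2 * Real.log 2 := by rw [hx2]; field_simp
  have key : sidonExp * x ^ 2 - 6 * x + (k : ℝ) ≤ size k := by
    have h1 : sidonExp * (x - 3) ^ 2 ≤ sidonExp * (k : ℝ) ^ 2 + sidonExp := by
      rcases le_total 3 x with h3 | h3
      · linarith [mul_le_mul_of_nonneg_left (pow_le_pow_left₀ (by linarith) (by linarith : x - 3 ≤ k) 2)
          (show (0 : ℝ) ≤ sidonExp by linarith)]
      · refine le_trans (mul_le_mul_of_nonneg_left (show (x - 3) ^ 2 ≤ 1 by nlinarith) (by linarith)) ?_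
        nlinarith
    nlinarith
  nlinarith [mul_le_mul_of_nonneg_right key hlog2.le]

end FA.InfiniteSidon
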